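import Mathlib
import Fermat.Agent.Hilbertian.Irreducibility
import Fermat.Agent.Local.Minkowski

/-!
# Hilbert irreducibility over number fields for absolutely irreducible polynomials

Let `f ∈ M[T][X]` be monic and irreducible over `ℚ̄`. After a shift of `X` the conjugates of `f` are
pairwise different, so their product is irreducible in `ℚ[T][X]`; where that stays irreducible on
specialising `T`, a root has full degree over `ℚ` and `f` stays irreducible over `M`.
-/

set_option autoImplicit false

noncomputable section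

namespace Fermat.Agent.PseudoAlgClosed

open Polynomial Hilbertian
open scoped Polynomial

local notation "Qb" => AlgebraicClosure ℚ
local notation "GQ" => AlgebraicClosure ℚ ≃ₐ[ℚ] AlgebraicClosure ℚ

/-- The coefficient below the top after a shift. -/
theorem coeff_taylor_pred {R : Type*} [CommRing R] [IsDomain R] {f : R[X]} (hf : f.Monic)
    (hd : f.natDegree ≠ 0) (r : R) :
    (taylor r f).coeff (f.natDegree - 1) = f.coeff (f.natDegree - 1) + (f.natDegree : R) * r := by
  rw [taylor_coeff, eval_eq_sum_range' (n := 2)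
    (lt_of_le_of_lt (natDegree_hasseDeriv_le f (f.natDegree - 1)) (by omega)),
    Finset.sum_range_succ, Finset.sum_range_one, hasseDeriv_coeff, hasseDeriv_coeff]
  have h1 : 1 + (f.natDegree - 1) = f.natDegree := by omega
  rw [h1, zero_add, Nat.choose_self, hf.coeff_natDegree, pow_zero, pow_one,
    Nat.choose_symm_of_eq_add (show f.natDegree = f.natDegree - 1 + 1 by omega),
    Nat.choose_one_right]
  ring

/-- Embeddings of a number field differ by automorphisms of `ℚ̄`. -/
theorem exists_algEquiv_comp {M : IntermediateField ℚ Qb} [FiniteDimensional ℚ M]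
    (σ τ : M →ₐ[ℚ] Qb) : ∃ g : GQ, (g : Qb →ₐ[ℚ] Qb).comp σ = τ := by
  have : IsGalois ℚ Qb := FA.Local.isGalois_qbar
  let a : GQ := AlgEquiv.ofBijective (σ.liftNormal Qb) (Algebra.IsAlgebraic.algHom_bijective _)
  let b : GQ := AlgEquiv.ofBijective (τ.liftNormal Qb) (Algebra.IsAlgebraic.algHom_bijective _)
  have ha : ∀ x : M, a (x : Qb) = σ x := fun x => AlgHom.liftNormal_commutes σ Qb x
  have hb : ∀ x : M, b (x : Qb) = τ x := fun x => AlgHom.liftNormal_commutes τ Qb x
  refine ⟨b * a⁻¹, AlgHom.ext fun x => ?_⟩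
  show b (a.symm (σ x)) = τ x
  rw [← ha, a.symm_apply_apply, hb]

/-- **Hilbert irreducibility over number fields**: a monic `f ∈ M[T][X]` which is irreducible over
`ℚ̄` stays irreducible over `M` at all integers `t` outside a set of density zero. -/
theorem densityZero_not_irreducible {M : IntermediateField ℚ Qb} [FiniteDimensional ℚ M]
    {f : (↥M)[X][X]} (hf : f.Monic) (hd : f.natDegree ≠ 0)
    (hirr : Irreducible (f.map (mapRingHom (algebraMap M Qb)))) :
    DensityZero {t : ℤ | ¬ Irreducible (f.map (evalRingHom (t : M)))} := by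
  classical
  have : IsGalois ℚ Qb := FA.Local.isGalois_qbar
  set pb := Field.powerBasisOfFiniteOfSeparable ℚ M
  set d := f.natDegree with hddef
  set s : M := (pb.gen - (f.coeff (d - 1)).eval 0) / (d : M) with hs
  set f' := taylor (C s) f with hf'
  have hdM : (d : M) ≠ 0 := Nat.cast_ne_zero.2 hd
  have hf'm : f'.Monic := by
    rw [hf', taylor_apply]
    exact hf.comp_X_add_C _
  have hf'd : f'.natDegree = d := natDegree_taylor _ _
  have hcoeff : (f'.coeff (d - 1)).eval 0 = pb.gen := by
    rw [hf', hddef, coeff_taylor_pred hf hd, eval_add, eval_mul, eval_natCast, eval_C, ← hddef, hs,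
      mul_div_cancel₀ _ hdM, add_sub_cancel]
  -- the conjugates
  let P : (M →ₐ[ℚ] Qb) → Qb[X][X] := fun σ => f'.map (mapRingHom (σ : M →+* Qb))
  have hPm : ∀ σ, (P σ).Monic := fun σ => hf'm.map _
  have hPg : ∀ (g : GQ) σ, (P σ).map (mapRingHom (g : Qb →+* Qb))
      = P ((g : Qb →ₐ[ℚ] Qb).comp σ) := fun g σ => by
    show (f'.map _).map _ = f'.map _
    rw [Polynomial.map_map, mapRingHom_comp]
    rfl
  have hP0 : Irreducible (P M.val) := by
    show Irreducible (f'.map (mapRingHom (algebraMap M Qb)))
    rw [hf', taylor_apply, Polynomial.map_comp, Polynomial.map_add, map_X, map_C, ← taylor_apply]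
    exact (MulEquiv.irreducible_iff (taylorEquiv (mapRingHom (algebraMap M Qb) (C s)) :
      Qb[X][X] ≃* Qb[X][X])).2 hirr
  have hPirr : ∀ σ, Irreducible (P σ) := fun σ => by
    obtain ⟨g, rfl⟩ := exists_algEquiv_comp M.val σ
    rw [← hPg]
    exact (MulEquiv.irreducible_iff
      (mapEquiv (mapEquiv (g : Qb ≃+* Qb)) : Qb[X][X] ≃* Qb[X][X])).2 hP0
  have hPinj : Function.Injective P := fun σ τ h => pb.algHom_ext (by
    have h' : ∀ ρ : M →ₐ[ℚ] Qb, ((P ρ).coeff (d - 1)).eval 0 = ρ pb.gen := fun ρ => by
      show ((f'.map (mapRingHom (ρ : M →+* Qb))).coeff (d - 1)).eval 0 = _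
      rw [coeff_map, coe_mapRingHom, eval_map, ← map_zero (ρ : M →+* Qb), eval₂_at_apply, hcoeff]
      rfl
    rw [← h', ← h', h])
  -- their product is rational
  set G := ∏ σ, P σ with hG
  have hGm : G.Monic := monic_prod_of_monic _ _ fun σ _ => hPm σ
  have hGfix : ∀ g : GQ, G.map (mapRingHom (g : Qb →+* Qb)) = G := fun g => by
    rw [hG, Polynomial.map_prod]
    refine (Finset.prod_congr rfl fun σ _ => hPg g σ).trans (Fintype.prod_bijective _ ?_ _ _
      fun σ => rfl)
    exact (Finite.injective_iff_bijective).1 fun σ τ h => AlgHom.ext fun x =>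
      g.injective (AlgHom.congr_fun h x)
  have hGlift : G ∈ lifts (mapRingHom (algebraMap ℚ Qb)) := by
    refine (lifts_iff_coeff_lifts _).2 fun j => ?_
    suffices h : G.coeff j ∈ lifts (algebraMap ℚ Qb) from h
    refine (lifts_iff_coeff_lifts _).2 fun i => (InfiniteGalois.mem_range_algebraMap_iff_fixed _).2
      fun g => ?_
    have h := congrArg (fun q => (q.coeff j).coeff i) (hGfix g)
    simpa [coeff_map] using h
  obtain ⟨g₀, hg₀, -, hg₀m⟩ := lifts_and_degree_eq_and_monic hGlift hGm
  have hdeg : g₀.natDegree = Fintype.card (M →ₐ[ℚ] Qb) * d := by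
    rw [← hg₀m.natDegree_map (mapRingHom (algebraMap ℚ Qb)), hg₀, hG,
      natDegree_prod_of_monic _ _ fun σ _ => hPm σ]
    simp [P, hf'm.natDegree_map, hf'd]
  have : Nonempty (M →ₐ[ℚ] Qb) := ⟨M.val⟩
  have hι : Function.Injective (mapRingHom (algebraMap ℚ Qb)) := by
    rw [coe_mapRingHom]
    exact map_injective _ (algebraMap ℚ Qb).injective
  have hpos : g₀.natDegree ≠ 0 := by
    rw [hdeg]
    exact Nat.mul_ne_zero Fintype.card_ne_zero hd
  -- and irreducible
  have hg₀irr : Irreducible g₀ := by
    refine irreducible_iff.2 ⟨fun hu => hpos (natDegree_eq_zero_of_isUnit hu), fun a b hab => ?_⟩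
    have hlc : a.leadingCoeff * b.leadingCoeff = 1 := by
      rw [← leadingCoeff_mul, ← hab, hg₀m.leadingCoeff]
    have key : ∀ u v : ℚ[X][X], g₀ = u * v → IsUnit v.leadingCoeff →
        P M.val ∣ u.map (mapRingHom (algebraMap ℚ Qb)) → IsUnit v := by
      intro u v huv hv hdvd
      have hall : G ∣ u.map (mapRingHom (algebraMap ℚ Qb)) := by
        refine Finset.prod_dvd_of_isRelPrime (fun σ _ τ _ hne => ?_) fun σ _ => ?_
        · refine ((hPirr σ).isRelPrime_iff_not_dvd).2 fun h => hne (hPinj ?_)
          exact eq_of_monic_of_associated (hPm σ) (hPm τ) ((hPirr σ).associated_of_dvd (hPirr τ) h)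
        · obtain ⟨g, rfl⟩ := exists_algEquiv_comp M.val σ
          have h := Polynomial.map_dvd (mapRingHom (g : Qb →+* Qb)) hdvd
          have e : (u.map (mapRingHom (algebraMap ℚ Qb))).map (mapRingHom (g : Qb →+* Qb))
              = u.map (mapRingHom (algebraMap ℚ Qb)) := by
            rw [Polynomial.map_map, mapRingHom_comp]
            congr 2
            exact RingHom.ext_rat _ _
          rw [hPg, e] at h
          exact h
      rw [← hg₀, huv, Polynomial.map_mul] at hall
      have hu0 : u.map (mapRingHom (algebraMap ℚ Qb)) ≠ 0 := by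
        rw [Polynomial.map_ne_zero_iff hι]
        rintro rfl
        exact hg₀m.ne_zero (by rw [huv, zero_mul])
      obtain ⟨c, hc⟩ := hall
      have h1 : (v.map (mapRingHom (algebraMap ℚ Qb))) * c = 1 :=
        mul_left_cancel₀ hu0 (by rw [← mul_assoc, ← hc, mul_one])
      have h0 : v.natDegree = 0 := by
        rw [← natDegree_map_eq_of_injective hι v]
        exact natDegree_eq_zero_of_isUnit (isUnit_iff_exists_inv.2 ⟨_, h1⟩)
      rw [eq_C_of_natDegree_eq_zero h0, ← show v.coeff v.natDegree = v.coeff 0 by rw [h0]]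
      exact isUnit_C.2 hv
    have hprime : Prime (P M.val) := UniqueFactorizationMonoid.irreducible_iff_prime.1 (hPirr _)
    rcases hprime.dvd_or_dvd (show P M.val ∣ a.map (mapRingHom (algebraMap ℚ Qb)) *
        b.map (mapRingHom (algebraMap ℚ Qb)) by
      rw [← Polynomial.map_mul, ← hab, hg₀, hG]
      exact Finset.dvd_prod_of_mem _ (Finset.mem_univ _)) with h | h
    · exact Or.inr (key a b hab (isUnit_iff_exists_inv.2 ⟨_, (mul_comm _ _).trans hlc⟩) h)
    · exact Or.inl (key b a (hab.trans (mul_comm a b)) (isUnit_iff_exists_inv.2 ⟨_, hlc⟩) h)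
  -- specialise
  refine (densityZero_badSet_of_irreducible hg₀irr hpos).mono fun t ht hgood => ht ?_
  obtain ⟨hgdeg, hgirr⟩ := hgood
  set ft := f'.map (evalRingHom (t : M)) with hft
  suffices h : Irreducible ft by
    rw [hft, hf', taylor_apply, Polynomial.map_comp, Polynomial.map_add, map_X, map_C,
      ← taylor_apply] at h
    exact (MulEquiv.irreducible_iff (taylorEquiv (evalRingHom (t : M) (C s)) :
      (↥M)[X] ≃* (↥M)[X])).1 h
  have hftm : ft.Monic := hf'm.map _
  have hftd : ft.natDegree = d := (hf'm.natDegree_map _).trans hf'd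
  obtain ⟨q, hq, hqdvd⟩ := WfDvdMonoid.exists_irreducible_factor
    (fun hu => hd (hftd ▸ natDegree_eq_zero_of_isUnit hu)) hftm.ne_zero
  obtain ⟨y, hy⟩ := IsAlgClosed.exists_aeval_eq_zero Qb q (degree_pos_of_irreducible hq).ne'
  -- `y` has degree `[M : ℚ] d` over `ℚ`
  have hyf : (f'.map (evalRingHom (t : M))).eval₂ (algebraMap M Qb) y = 0 :=
    aeval_eq_zero_of_dvd_aeval_eq_zero hqdvd hy
  have hyg : aeval y (specialise g₀ (t : ℚ)) = 0 := by
    have h1 : (P M.val).map (evalRingHom (t : Qb)) ∣ G.map (evalRingHom (t : Qb)) :=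
      Polynomial.map_dvd _ (hG ▸ Finset.dvd_prod_of_mem _ (Finset.mem_univ _))
    have h2 : ((P M.val).map (evalRingHom (t : Qb))).eval y = 0 := by
      rw [← hyf, eval₂_eq_eval_map, Polynomial.map_map, Polynomial.map_map]
      congr 2
      refine RingHom.ext fun u => ?_
      exact eval_intCast_map (algebraMap M Qb) u t
    have h3 := eval_eq_zero_of_dvd_of_eval_eq_zero h1 h2
    rw [← hg₀, Polynomial.map_map] at h3
    rw [aeval_def, eval₂_eq_eval_map, specialise, Polynomial.map_map, ← h3]
    congr 2
    refine RingHom.ext fun u => ?_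
    exact (eval_intCast_map (algebraMap ℚ Qb) u t).symm
  have hmy : (minpoly ℚ y).natDegree = g₀.natDegree := by
    rw [← minpoly.eq_of_irreducible hgirr hyg, natDegree_mul_C (inv_ne_zero
      (leadingCoeff_ne_zero.2 hgirr.ne_zero)), hgdeg]
  -- so at most `[M : ℚ] deg q`
  have hqd : d ≤ q.natDegree := by
    have hint : IsIntegral M y := (Algebra.IsIntegral.isIntegral (R := ℚ) y).tower_top
    have h1 : (minpoly M y).natDegree ≤ q.natDegree :=
      natDegree_le_of_dvd (minpoly.dvd M y hy) hq.ne_zero
    have hfinM : FiniteDimensional M (IntermediateField.adjoin M {y}) :=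
      IntermediateField.adjoin.finiteDimensional hint
    have : FiniteDimensional ℚ (IntermediateField.adjoin M {y}) :=
      FiniteDimensional.trans ℚ M _
    have h2 : Module.finrank ℚ (IntermediateField.adjoin ℚ {y}) ≤
        Module.finrank ℚ M * (minpoly M y).natDegree := by
      rw [← IntermediateField.adjoin.finrank hint, Module.finrank_mul_finrank]
      exact LinearMap.finrank_le_finrank_of_injective
        (f := ({ toFun := fun x => ⟨(x : Qb), (IntermediateField.adjoin_le_iff
                (T := (IntermediateField.adjoin M {y}).restrictScalars ℚ)).2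
              (Set.singleton_subset_iff.2 (IntermediateField.mem_adjoin_simple_self M y)) x.2⟩
                 map_add' := fun _ _ => rfl
                 map_smul' := fun _ _ => rfl } :
          IntermediateField.adjoin ℚ {y} →ₗ[ℚ] IntermediateField.adjoin M {y}))
        fun a b h => Subtype.ext (congrArg Subtype.val h :)
    rw [IntermediateField.adjoin.finrank (Algebra.IsIntegral.isIntegral y), hmy, hdeg,
      AlgHom.card] at h2
    have hpos' : 0 < Module.finrank ℚ M := Module.finrank_pos
    exact (Nat.le_of_mul_le_mul_left h2 hpos').trans h1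
  exact (associated_of_dvd_of_natDegree_le hqdvd hftm.ne_zero (hftd ▸ hqd)).irreducible hq

end Fermat.Agent.PseudoAlgClosed
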