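import Mathlib
import Fermat.Agent.PseudoAlgClosed.Specialise

/-!
# Almost every tuple fixes a point of a given curve

At each new integer `t` with `f(t, X)` irreducible over a field fixing everything so far, the tuples
which fix that field permute the roots transitively, so the tuples without a common fixed root are a
proportion `1 - d ^ (-e)` of the remaining ones.
-/

set_option autoImplicit false

noncomputable section

namespace Fermat.Agent.PseudoAlgClosed

open Polynomial Hilbertian MeasureTheory
open scoped Polynomial ENNReal Topology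

local notation "Qb" => AlgebraicClosure ℚ
local notation "GQ" => AlgebraicClosure ℚ ≃ₐ[ℚ] AlgebraicClosure ℚ

/-- The automorphisms with a given value at a point form an open set. -/
theorem isOpen_setOf_apply_eq (y z : Qb) : IsOpen {g : GQ | g y = z} := by
  have : IsGalois ℚ Qb := FA.Local.isGalois_qbar
  have : FiniteDimensional ℚ (IntermediateField.adjoin ℚ {y}) :=
    IntermediateField.adjoin.finiteDimensional (Algebra.IsIntegral.isIntegral y)
  refine isOpen_iff_forall_mem_open.2 fun g hg => ⟨(fun h => g⁻¹ * h) ⁻¹'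
    ((IntermediateField.adjoin ℚ {y}).fixingSubgroup : Set GQ), fun h hh => ?_,
    (IntermediateField.fixingSubgroup_isOpen _).preimage (continuous_const_mul _), by simp⟩
  have h1 := (IntermediateField.mem_fixingSubgroup_iff _ _).1 hh y
    (IntermediateField.mem_adjoin_simple_self ℚ y)
  show h y = z
  rw [← hg]
  exact (AlgEquiv.symm_apply_eq g).1 h1

variable {K : IntermediateField ℚ Qb} [FiniteDimensional ℚ K] {e : ℕ}
  [MeasurableSpace (Fin e → K.fixingSubgroup)] [BorelSpace (Fin e → K.fixingSubgroup)]
  (μ : Measure (Fin e → K.fixingSubgroup)) [IsProbabilityMeasure μ] [μ.IsMulLeftInvariant]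

/-- The tuples fixing the coefficients but no point of the curve outside `T`. -/
def pointlessTuples (f : Qb[X][X]) (T : Finset ℤ) : Set (Fin e → K.fixingSubgroup) :=
  {σ | (∀ i j k, (σ i : GQ) ((f.coeff j).coeff k) = (f.coeff j).coeff k) ∧
    ¬ ∃ t ∉ T, ∃ y : Qb, (f.map (evalRingHom (t : Qb))).IsRoot y ∧ ∀ i, (σ i : GQ) y = y}

/-- **Almost every tuple fixing the coefficients fixes a point of the curve.** -/
theorem measure_pointlessTuples {f : Qb[X][X]} (hf : f.Monic) (hd : f.natDegree ≠ 0)
    (hirr : Irreducible f) (T : Finset ℤ) :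
    μ (pointlessTuples (K := K) (e := e) f T) = 0 := by
  classical
  have : IsGalois ℚ Qb := FA.Local.isGalois_qbar
  set C : Finset Qb := f.support.biUnion fun j => (f.coeff j).coeffs
  set M₁ := IntermediateField.adjoin ℚ (C : Set Qb)
  have : FiniteDimensional ℚ M₁ :=
    IntermediateField.finiteDimensional_adjoin fun x _ => Algebra.IsIntegral.isIntegral x
  set M : IntermediateField ℚ Qb := K ⊔ M₁
  have hKM : K ≤ M := le_sup_left
  have hC : ∀ j k, (f.coeff j).coeff k ∈ M := fun j k => by
    rcases eq_or_ne ((f.coeff j).coeff k) 0 with h | h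
    · rw [h]; exact zero_mem M
    · refine SetLike.le_def.1 le_sup_right (IntermediateField.subset_adjoin ℚ _ ?_)
      exact Finset.mem_coe.2 (Finset.mem_biUnion.2 ⟨j, mem_support_iff.2 fun h0 => h (by
        rw [h0, coeff_zero]), coeff_mem_coeffs h⟩)
  obtain ⟨fM, hfM, -, hfMm⟩ := lifts_and_degree_eq_and_monic
    (f := mapRingHom (algebraMap M Qb)) ((lifts_iff_coeff_lifts _).2 fun j => by
      suffices h : f.coeff j ∈ lifts (algebraMap M Qb) from h
      exact (lifts_iff_coeff_lifts _).2 fun k => ⟨⟨_, hC j k⟩, rfl⟩) hf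
  set D : ℕ := f.natDegree ^ e with hD
  have hD0 : 0 < D := pow_pos (Nat.pos_of_ne_zero hd) e
  have key : ∀ k : ℕ, ∃ N : IntermediateField ℚ Qb, FiniteDimensional ℚ N ∧ M ≤ N ∧
      ∃ B : Set (Fin e → K.fixingSubgroup), MeasurableSet B ∧ pointlessTuples f T ⊆ B ∧
        (∀ v : Fin e → K.fixingSubgroup, (∀ i, (v i : GQ) ∈ N.fixingSubgroup) →
          ∀ σ, v * σ ∈ B ↔ σ ∈ B) ∧
        (∀ σ ∈ B, ∀ i, (σ i : GQ) ∈ M.fixingSubgroup) ∧
        μ B * (D : ℝ≥0∞) ^ k ≤ ((D - 1 : ℕ) : ℝ≥0∞) ^ k := by
    intro k
    induction k with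
    | zero =>
      refine ⟨M, inferInstance, le_rfl, {σ | ∀ i, (σ i : GQ) ∈ M.fixingSubgroup}, ?_,
        fun σ hσ i => ?_, fun v hv σ => ⟨fun h i => ?_, fun h i => mul_mem (hv i) (h i)⟩,
        fun σ hσ => hσ, by simpa using prob_le_one⟩
      · refine (IsOpen.measurableSet ?_)
        simp only [Set.ofPred_forall]
        exact isOpen_iInter_of_finite fun i =>
          (IntermediateField.fixingSubgroup_isOpen M).preimage
            (continuous_subtype_val.comp (continuous_apply i))
      · rw [IntermediateField.mem_fixingSubgroup_iff]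
        suffices h : M ≤ IntermediateField.fixedField (Subgroup.zpowers (σ i : GQ)) from
          fun x hx => (IntermediateField.mem_fixedField_iff _ x).1 (h hx) _
            (Subgroup.mem_zpowers _)
        refine sup_le (fun x hx => ?_) (IntermediateField.adjoin_le_iff.2 fun x hx => ?_)
        · refine (IntermediateField.mem_fixedField_iff _ x).2 fun g hg => ?_
          exact (IntermediateField.mem_fixingSubgroup_iff _ _).1
            (Subgroup.zpowers_le.2 (σ i).2 hg) x hx
        · obtain ⟨j, -, hx'⟩ := Finset.mem_biUnion.1 (Finset.mem_coe.1 hx)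
          obtain ⟨l, -, rfl⟩ := mem_coeffs_iff.1 hx'
          refine (IntermediateField.mem_fixedField_iff _ _).2 fun g hg => ?_
          have hstab : (σ i : GQ) ∈ MulAction.stabilizer GQ ((f.coeff j).coeff l) := hσ.1 i j l
          exact Subgroup.zpowers_le.2 hstab hg
      · have := mul_mem (inv_mem (hv i)) (h i)
        simpa using this
    | succ k ih =>
      obtain ⟨N, hN, hMN, B, hBm, hBsub, hBinv, hBM, hBμ⟩ := ih
      let j : M →+* N := (IntermediateField.inclusion hMN).toRingHom
      obtain ⟨fN, hfNdef⟩ : ∃ q, q = fM.map (mapRingHom j) := ⟨_, rfl⟩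
      have hfNm : fN.Monic := hfNdef ▸ hfMm.map _
      have hfN : fN.map (mapRingHom (algebraMap N Qb)) = f := by
        rw [hfNdef, ← hfM, Polynomial.map_map, mapRingHom_comp]
        rfl
      have hdN : fN.natDegree = f.natDegree := by
        rw [← hfN, hfNm.natDegree_map]
      obtain ⟨n, hn, hnT⟩ := ((densityZero_not_irreducible (M := N) hfNm (hdN ▸ hd)
        (by rw [hfN]; exact hirr)).infinite_nat.sdiff (T.finite_toSet.preimage
          (Nat.cast_injective (R := ℤ)).injOn)).nonempty
      set t : ℤ := (n : ℤ)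
      have hpirr : Irreducible (fN.map (evalRingHom (t : N))) := not_not.1 hn
      set p := fN.map (evalRingHom (t : N)) with hp
      set pQ := f.map (evalRingHom (t : Qb)) with hpQ
      have hppQ : p.map (algebraMap N Qb) = pQ := by
        rw [hpQ, ← hfN, hp, Polynomial.map_map, Polynomial.map_map]
        congr 1
        refine RingHom.ext fun u => ?_
        exact (eval_intCast_map (algebraMap N Qb) u t).symm
      have hpm : p.Monic := hfNm.map _
      have hpd : pQ.natDegree = f.natDegree := hf.natDegree_map _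
      have hR : pQ.roots.toFinset.card = f.natDegree := by
        rw [Multiset.toFinset_card_of_nodup (nodup_roots (hppQ ▸ hpirr.separable.map)), ← hpd]
        exact (IsAlgClosed.splits pQ).natDegree_eq_card_roots.symm
      set R := pQ.roots.toFinset
      obtain ⟨y, hy⟩ : R.Nonempty := Finset.card_pos.1 (hR ▸ Nat.pos_of_ne_zero hd)
      have hmemR : ∀ z, z ∈ R ↔ pQ.IsRoot z := fun z => by
        rw [Multiset.mem_toFinset, mem_roots ((hf.map _).ne_zero)]
      -- translations permute the roots transitively
      have hmove : ∀ z ∈ R, ∃ g : K.fixingSubgroup, (g : GQ) ∈ N.fixingSubgroup ∧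
          (g : GQ) y = z := fun z hz => by
        have hpy : aeval y p = 0 := by
          rw [aeval_def, eval₂_eq_eval_map, hppQ]
          exact (hmemR y).1 hy
        have hmin : aeval z (minpoly N y) = 0 := by
          rw [← minpoly.eq_of_irreducible_of_monic hpirr hpy hpm, aeval_def, eval₂_eq_eval_map,
            hppQ]
          exact (hmemR z).1 hz
        obtain ⟨g, hg⟩ := minpoly.exists_algEquiv_of_root' ⟨p, hpm.ne_zero, hpy⟩ hmin
        have hgN : g.restrictScalars ℚ ∈ N.fixingSubgroup :=
          (IntermediateField.mem_fixingSubgroup_iff _ _).2 fun x hx => g.commutes ⟨x, hx⟩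
        exact ⟨⟨g.restrictScalars ℚ, IntermediateField.fixingSubgroup_le (hKM.trans hMN) hgN⟩,
          hgN, hg⟩
      let A : (Fin e → R) → Set (Fin e → K.fixingSubgroup) := fun r =>
        {σ | ∀ i, (σ i : GQ) y = r i}
      have hA : ∀ r, MeasurableSet (A r) := fun r => by
        refine IsOpen.measurableSet ?_
        simp only [A, Set.ofPred_forall]
        exact isOpen_iInter_of_finite fun i => (isOpen_setOf_apply_eq y (r i)).preimage
          (continuous_subtype_val.comp (continuous_apply i))
      let r₀ : Fin e → R := fun _ => ⟨y, hy⟩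
      have hshift : ∀ r, μ (B ∩ A r) = μ (B ∩ A r₀) := fun r => by
        choose v hvN hv using fun i => hmove (r i) (r i).2
        rw [show B ∩ A r = (fun σ => v⁻¹ * σ) ⁻¹' (B ∩ A r₀) from ?_, measure_preimage_mul]
        ext σ
        refine and_congr (hBinv v⁻¹ (fun i => inv_mem (hvN i)) σ).symm (forall_congr' fun i => ?_)
        show (σ i : GQ) y = r i ↔ ((v i : GQ)⁻¹ * σ i : GQ) y = y
        rw [AlgEquiv.mul_apply, ← hv i]
        exact (AlgEquiv.symm_apply_eq (v i : GQ)).symm
      have hcover : B = ⋃ r, B ∩ A r := by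
        refine subset_antisymm (fun σ hσ => ?_) (Set.iUnion_subset fun r => Set.inter_subset_left)
        refine Set.mem_iUnion.2 ⟨fun i => ⟨(σ i : GQ) y, (hmemR _).2 ?_⟩, hσ, fun i => rfl⟩
        have hfix : pQ.map ((σ i : GQ) : Qb →+* Qb) = pQ := by
          rw [hpQ, ← hfM]
          simp only [Polynomial.map_map]
          congr 1
          refine RingHom.ext fun u => ?_
          have h := eval_intCast_map (algebraMap M Qb) u t
          simp only [RingHom.comp_apply, coe_mapRingHom, coe_evalRingHom]
          rw [h]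
          exact (IntermediateField.mem_fixingSubgroup_iff _ _).1 (hBM σ hσ i) _
            (eval (t : M) u).2
        rw [IsRoot, ← hfix]
        show eval (((σ i : GQ) : Qb →+* Qb) y) _ = 0
        rw [eval_map, eval₂_at_apply, (hmemR y).1 hy, map_zero]
      have hdis : Pairwise (Function.onFun Disjoint fun r => B ∩ A r) := fun r r' hne =>
        Set.disjoint_left.2 fun σ hσ hσ' => hne (funext fun i => Subtype.ext
          ((hσ.2 i).symm.trans (hσ'.2 i)))
      have hμB : μ B = (D : ℝ≥0∞) * μ (B ∩ A r₀) := by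
        conv_lhs => rw [hcover]
        rw [measure_iUnion hdis fun r => hBm.inter (hA r), tsum_fintype,
          Finset.sum_congr rfl fun r _ => hshift r, Finset.sum_const, nsmul_eq_mul,
          Finset.card_univ, Fintype.card_fun, Fintype.card_coe, hR, Fintype.card_fin]
      refine ⟨N ⊔ IntermediateField.adjoin ℚ {y}, ?_, hMN.trans le_sup_left, B \ A r₀,
        hBm.diff (hA r₀), fun σ hσ => ⟨hBsub hσ, fun h => hσ.2 ⟨t, hnT, y, (hmemR y).1 hy, h⟩⟩,
        fun v hv σ => ?_, fun σ hσ => hBM σ hσ.1, ?_⟩
      · have : FiniteDimensional ℚ (IntermediateField.adjoin ℚ {y}) :=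
          IntermediateField.adjoin.finiteDimensional (Algebra.IsIntegral.isIntegral y)
        infer_instance
      · have hvN : ∀ i, (v i : GQ) ∈ N.fixingSubgroup := fun i =>
          IntermediateField.fixingSubgroup_le le_sup_left (hv i)
        have hvy : ∀ i, (v i : GQ) y = y := fun i =>
          (IntermediateField.mem_fixingSubgroup_iff _ _).1
            (IntermediateField.fixingSubgroup_le le_sup_right (hv i)) y
            (IntermediateField.mem_adjoin_simple_self ℚ y)
        refine and_congr (hBinv v hvN σ) (not_congr (forall_congr' fun i => ?_))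
        show (v i : GQ) ((σ i : GQ) y) = y ↔ (σ i : GQ) y = y
        conv_lhs => rw [← hvy i]
        rw [← AlgEquiv.mul_apply, hvy i]
        exact ⟨fun h => (v i : GQ).injective (h.trans (hvy i).symm),
          fun h => by rw [AlgEquiv.mul_apply, h, hvy]⟩
      · have hdiff : μ (B \ A r₀) = ((D - 1 : ℕ) : ℝ≥0∞) * μ (B ∩ A r₀) := by
          have hsplit := measure_inter_add_sdiff B (hA r₀) (μ := μ)
          have hfin : μ (B ∩ A r₀) ≠ ⊤ := measure_ne_top μ _
          rw [hμB, show (D : ℝ≥0∞) = 1 + ((D - 1 : ℕ) : ℝ≥0∞) by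
            rw [← Nat.cast_one, ← Nat.cast_add]; congr 1; omega, add_mul, one_mul] at hsplit
          exact (ENNReal.add_right_inj hfin).1 hsplit
        calc μ (B \ A r₀) * (D : ℝ≥0∞) ^ (k + 1)
            = ((D - 1 : ℕ) : ℝ≥0∞) * (μ B * (D : ℝ≥0∞) ^ k) := by
              rw [hdiff, hμB, pow_succ]; ring
          _ ≤ ((D - 1 : ℕ) : ℝ≥0∞) * ((D - 1 : ℕ) : ℝ≥0∞) ^ k := mul_le_mul_right hBμ _
          _ = ((D - 1 : ℕ) : ℝ≥0∞) ^ (k + 1) := (pow_succ' _ _).symm
  have hr : ((D - 1 : ℕ) : ℝ≥0∞) / (D : ℝ≥0∞) < 1 :=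
    ENNReal.div_lt_of_lt_mul' (by rw [mul_one]; exact_mod_cast Nat.sub_lt hD0 one_pos)
  refine le_antisymm (ge_of_tendsto (ENNReal.tendsto_pow_atTop_nhds_zero_of_lt_one hr)
    (Filter.Eventually.of_forall fun k => ?_)) zero_le
  obtain ⟨N, -, -, B, -, hsub, -, -, hB⟩ := key k
  refine (measure_mono hsub).trans ?_
  simp only [div_eq_mul_inv, mul_pow, ← ENNReal.inv_pow]
  rw [← div_eq_mul_inv]
  exact (ENNReal.le_div_iff_mul_le (Or.inl (pow_ne_zero _ (by exact_mod_cast hD0.ne')))
    (Or.inl (ENNReal.pow_ne_top (ENNReal.natCast_ne_top _)))).2 hB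

end Fermat.Agent.PseudoAlgClosed
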